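import Mathlib
import Fermat.Statements.S57

/-!
# S57, final step: from freeness of `L.N` over the power series ring to the three goals
-/

set_option autoImplicit false

namespace Fermat.Agent.S57

open Algebra

section Conclude

variable {𝒪 : Type} [CommRing 𝒪]
  {r : ℕ} {R : Type} [CommRing R] [Algebra 𝒪 R]
  {M : Type} [AddCommGroup M] [Module R M]

/-- coordinates of an element of `I • ⊤` w.r.t. a basis lie in `I` -/
theorem S57_repr_mem_of_mem_smul_top {A : Type*} [CommRing A] {N : Type*} [AddCommGroup N]
    [Module A N] {ι : Type*} (B : Module.Basis ι A N) (I : Ideal A) {x : N}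
    (hx : x ∈ I • (⊤ : Submodule A N)) (j : ι) : B.repr x j ∈ I := by
  refine Submodule.smul_induction_on hx ?_ ?_
  · intro a ha n _
    rw [map_smul, Finsupp.smul_apply, smul_eq_mul]
    exact Ideal.mul_mem_right _ _ ha
  · intro x y hx hy
    rw [map_add, Finsupp.add_apply]
    exact Ideal.add_mem _ hx hy

variable (L : Algebra.PatchingLevel 𝒪 r R M ⊥)

theorem S57_span_le_ker :
    Ideal.span (Set.range fun i : Fin r => L.φ (MvPowerSeries.X i)) ≤ RingHom.ker L.ψ := by
  rw [Ideal.span_le]
  rintro _ ⟨i, rfl⟩
  exact L.ψ_φ_X i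

theorem S57_π_sum {ι : Type*} (s : Finset ι) (c : ι → MvPowerSeries (Fin r) 𝒪) (n : ι → L.N) :
    L.π (∑ j ∈ s, c j • n j) = ∑ j ∈ s, L.ψ (c j) • L.π (n j) := by
  rw [map_sum]
  exact Finset.sum_congr rfl fun j _ => L.π_smul _ _

theorem S57_conclude [Nontrivial M]
    (hfree : Module.Free (MvPowerSeries (Fin r) 𝒪) L.N) :
    Module.Free R M ∧ Module.annihilator R M = ⊥ ∧
      RingHom.ker L.ψ = Ideal.span (Set.range fun i : Fin r => L.φ (MvPowerSeries.X i)) := by
  classical
  set P := MvPowerSeries (Fin r) 𝒪 with hP
  set I : Ideal P := Ideal.span (Set.range fun i : Fin r => L.φ (MvPowerSeries.X i)) with hI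
  let ι := Module.Free.ChooseBasisIndex P L.N
  let B : Module.Basis ι P L.N := Module.Free.chooseBasis P L.N
  -- the family `π (B j)`
  let v : ι → M := fun j => L.π (B j)
  have hIker : I ≤ RingHom.ker L.ψ := S57_span_le_ker L
  -- key: `π (∑ c j • B j) = 0 → ∀ j, c j ∈ I`
  have key : ∀ c : ι →₀ P, L.π (Finsupp.linearCombination P B c) = 0 → ∀ j, c j ∈ I := by
    intro c hc j
    have h1 := (L.ker_π _).mp hc
    have h2 := S57_repr_mem_of_mem_smul_top B I h1 j
    rwa [B.repr_linearCombination] at h2
  -- linear independence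
  have hli : LinearIndependent R v := by
    rw [linearIndependent_iff]
    intro l hl
    -- lift `l` to `P`
    let s : R → P := fun a => if a = 0 then 0 else (L.ψ_surjective a).choose
    have hs : ∀ a, L.ψ (s a) = a := by
      intro a
      by_cases ha : a = 0
      · simp [s, ha]
      · simp only [s, ha, if_false]
        exact (L.ψ_surjective a).choose_spec
    have hs0 : s 0 = 0 := by simp [s]
    let l' : ι →₀ P := l.mapRange s hs0
    have h3 : L.π (Finsupp.linearCombination P B l') = 0 := by
      rw [Finsupp.linearCombination_apply, Finsupp.sum, S57_π_sum]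
      rw [Finsupp.linearCombination_apply, Finsupp.sum] at hl
      rw [← hl]
      have hsupp : l'.support ⊆ l.support := Finsupp.support_mapRange
      rw [Finset.sum_subset hsupp]
      · refine Finset.sum_congr rfl fun j _ => ?_
        simp only [l', Finsupp.mapRange_apply, hs]
        rfl
      · intro j _ hj
        rw [Finsupp.notMem_support_iff] at hj
        rw [hj, map_zero, zero_smul]
    ext j
    have h4 := hIker (key l' h3 j)
    rw [RingHom.mem_ker] at h4
    simp only [l', Finsupp.mapRange_apply, hs] at h4
    simpa using h4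
  -- spanning
  have hspan : ⊤ ≤ Submodule.span R (Set.range v) := by
    rintro m -
    obtain ⟨x, rfl⟩ := L.π_surjective m
    rw [← B.linearCombination_repr x, Finsupp.linearCombination_apply, Finsupp.sum, S57_π_sum]
    refine Submodule.sum_mem _ fun j _ => ?_
    exact Submodule.smul_mem _ _ (Submodule.subset_span ⟨j, rfl⟩)
  let Bv : Module.Basis ι R M := Module.Basis.mk hli hspan
  have hne : Nonempty ι := by
    by_contra h
    rw [not_nonempty_iff] at h
    have : Subsingleton M := by
      refine ⟨fun a b => ?_⟩
      have ha : a ∈ Submodule.span R (Set.range v) := hspan trivial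
      have hb : b ∈ Submodule.span R (Set.range v) := hspan trivial
      rw [Set.range_eq_empty, Submodule.span_empty, Submodule.mem_bot] at ha hb
      rw [ha, hb]
    exact not_subsingleton M this
  obtain ⟨j₀⟩ := hne
  refine ⟨Module.Free.of_basis Bv, ?_, ?_⟩
  · rw [eq_bot_iff]
    intro a ha
    rw [Module.mem_annihilator] at ha
    have h5 : a • Bv j₀ = 0 := ha _
    have h6 := congrArg (fun x => Bv.repr x j₀) h5
    simpa using h6
  · refine le_antisymm ?_ hIker
    intro f hf
    rw [RingHom.mem_ker] at hf
    have h7 : L.π (Finsupp.linearCombination P B (Finsupp.single j₀ f)) = 0 := by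
      rw [Finsupp.linearCombination_single, L.π_smul, hf, zero_smul]
    have h8 := key _ h7 j₀
    simpa using h8

end Conclude

end Fermat.Agent.S57
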