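import Mathlib

set_option autoImplicit false

open RingTheory.Sequence CategoryTheory IsLocalRing
open scoped Pointwise

namespace Fermat.Agent.S57

/-- Over a local ring whose residue field has projective dimension `< n`, every module of
finite length has projective dimension `< n`. -/
theorem S57_pdLT_of_isFiniteLength {B : Type} [CommRing B] [IsLocalRing B]
    (n : ℕ) (hk : HasProjectiveDimensionLT (ModuleCat.of B (B ⧸ maximalIdeal B)) n)
    {Q : Type} [AddCommGroup Q] [Module B Q] (hQ : IsFiniteLength B Q) :
    HasProjectiveDimensionLT (ModuleCat.of B Q) n := by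
  induction hQ with
  | @of_subsingleton M _ _ _ =>
    have hz : Limits.IsZero (ModuleCat.of B M) := ModuleCat.isZero_of_subsingleton _
    have := hz.hasProjectiveDimensionLT_zero
    exact hasProjectiveDimensionLT_of_ge _ 0 n (Nat.zero_le n)
  | @of_simple_quotient M _ _ N hs _ ih =>
    obtain ⟨I, hI, ⟨e⟩⟩ := isSimpleModule_iff_quot_maximal.mp hs
    have hIm : I = maximalIdeal B := IsLocalRing.eq_maximalIdeal hI
    subst hIm
    let S : ShortComplex (ModuleCat.{0} B) := N.mkQ.shortComplexKer
    have hS : S.ShortExact := LinearMap.shortExact_shortComplexKer N.mkQ_surjective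
    have h1 : HasProjectiveDimensionLT S.X₁ n := by
      have e1 : (LinearMap.ker N.mkQ) ≃ₗ[B] N := LinearEquiv.ofEq _ _ N.ker_mkQ
      exact hasProjectiveDimensionLT_of_iso e1.toModuleIso.symm n
    have h3 : HasProjectiveDimensionLT S.X₃ n :=
      hasProjectiveDimensionLT_of_iso e.toModuleIso.symm n
    exact hS.hasProjectiveDimensionLT_X₂ n h1 h3

end Fermat.Agent.S57
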