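import Mathlib
import Fermat.Agent.S57.PdFinLen

set_option autoImplicit false

open RingTheory.Sequence CategoryTheory IsLocalRing
open scoped Pointwise

namespace Fermat.Agent.S57

/-- A module over a ring `A`, finitely generated and killed by a maximal ideal, is artinian. -/
theorem S57_isArtinian_of_torsion_maximal {A : Type} [CommRing A] (𝔪 : Ideal A) [h𝔪 : 𝔪.IsMaximal]
    {Q : Type} [AddCommGroup Q] [Module A Q] [Module.Finite A Q]
    (htors : Module.IsTorsionBySet A Q 𝔪) : IsArtinian A Q := by
  let _ : Field (A ⧸ 𝔪) := Ideal.Quotient.field 𝔪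
  let _ : Module (A ⧸ 𝔪) Q := htors.module
  have : IsScalarTower A (A ⧸ 𝔪) Q := htors.isScalarTower
  have : Module.Finite (A ⧸ 𝔪) Q := Module.Finite.of_restrictScalars_finite A (A ⧸ 𝔪) Q
  have : IsArtinian (A ⧸ 𝔪) Q := inferInstance
  exact isArtinian_of_surjective_algebraMap (R := A ⧸ 𝔪) (S := A) (M := Q)
    Ideal.Quotient.mk_surjective

/-- Abstract freeness criterion (Auslander–Buchsbaum in the form needed for patching):
`N` is a module over a noetherian local ring `B`, and via `φ : A → B` it is free of finite rank
over `A`. If `A` has a regular sequence generating a maximal ideal, and the maximal ideal of `B` is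
generated by a regular sequence that is not longer, then `N` is free over `B`. -/
theorem S57_free_of_free_via {A B : Type} [CommRing A] [CommRing B] [IsLocalRing B]
    [IsNoetherianRing B]
    [Algebra A B] {N : Type} [AddCommGroup N] [Module B N] [Module A N] [IsScalarTower A B N]
    [Nontrivial N] [Module.Free A N] [Module.Finite A N]
    (rsA : List A) (hA : IsWeaklyRegular A rsA) (hAmax : (Ideal.ofList rsA).IsMaximal)
    (rsB : List B) (hB : IsWeaklyRegular B rsB) (hBmax : (Ideal.ofList rsB).IsMaximal)
    (hlen : rsB.length ≤ rsA.length) : Module.Free B N := by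
  have hBeq : Ideal.ofList rsB = maximalIdeal B := IsLocalRing.eq_maximalIdeal hBmax
  have hfinB : Module.Finite B N := Module.Finite.of_restrictScalars_finite A B N
  -- step 1: `rsA` is weakly regular on `N` over `A`
  have hregA : IsWeaklyRegular N rsA :=
    ((TensorProduct.lid A N).isWeaklyRegular_congr rsA).mp
      (hA.isWeaklyRegular_rTensor (M₂ := N))
  -- step 2: its image is weakly regular on `N` over `B`
  have hregB : IsWeaklyRegular N (rsA.map (algebraMap A B)) :=
    (isWeaklyRegular_map_algebraMap_iff B N rsA).mpr hregA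
  -- step 3: the image lies in the maximal ideal
  have hne : (Ideal.ofList rsA) • (⊤ : Submodule A N) ≠ ⊤ :=
    Module.FaithfullyFlat.submodule_ne_top (R := A) (M := N) hAmax
  have hmem : ∀ r ∈ rsA.map (algebraMap A B), r ∈ maximalIdeal B := by
    intro r hr
    rw [List.mem_map] at hr
    obtain ⟨a, ha, rfl⟩ := hr
    by_contra hnot
    have hu : IsUnit (algebraMap A B a) := by
      by_contra h
      exact hnot ((IsLocalRing.mem_maximalIdeal _).mpr h)
    apply hne
    rw [eq_top_iff]
    intro x _
    obtain ⟨u, hu'⟩ := hu
    have hx : x = a • ((↑u⁻¹ : B) • x) := by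
      rw [← algebraMap_smul B a, ← hu', smul_smul, Units.mul_inv, one_smul]
    rw [hx]
    exact Submodule.smul_mem_smul (Ideal.subset_span ha) Submodule.mem_top
  -- step 4: projective dimension of the quotient
  have hpd := ModuleCat.projectiveDimension_quotient_eq_add_length_of_isWeaklyRegular
    (ModuleCat.of B N) (rsA.map (algebraMap A B)) hregB hmem
  rw [List.length_map] at hpd
  -- step 5: the quotient has finite length over `B`
  have hJ : Ideal.ofList (rsA.map (algebraMap A B)) = (Ideal.ofList rsA).map (algebraMap A B) := by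
    unfold Ideal.ofList
    rw [Ideal.map_span]
    congr 1
    ext x
    simp
  let p : Submodule B N := Ideal.ofList (rsA.map (algebraMap A B)) • (⊤ : Submodule B N)
  have hfinAQ : Module.Finite A (N ⧸ p) :=
    Module.Finite.of_surjective (p.mkQ.restrictScalars A) p.mkQ_surjective
  have htors : Module.IsTorsionBySet A (N ⧸ p) (Ideal.ofList rsA) := by
    intro q a
    obtain ⟨n, rfl⟩ := p.mkQ_surjective q
    have h1 : ((a : A) • n) ∈ p := by
      rw [← algebraMap_smul B (a : A) n]
      refine Submodule.smul_mem_smul ?_ Submodule.mem_top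
      rw [hJ]
      exact Ideal.mem_map_of_mem _ a.2
    have h2 : (a : A) • p.mkQ n = p.mkQ ((a : A) • n) := by
      rw [← algebraMap_smul B (a : A) n, ← algebraMap_smul B (a : A) (p.mkQ n), map_smul]
    rw [h2]
    exact (Submodule.Quotient.mk_eq_zero p).mpr h1
  have hartA : IsArtinian A (N ⧸ p) :=
    S57_isArtinian_of_torsion_maximal (Ideal.ofList rsA) htors
  have hartB : IsArtinian B (N ⧸ p) := isArtinian_of_tower A hartA
  have hnoeB : IsNoetherian B (N ⧸ p) := inferInstance
  have hfl : IsFiniteLength B (N ⧸ p) :=
    isFiniteLength_iff_isNoetherian_isArtinian.mpr ⟨hnoeB, hartB⟩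
  -- step 6: the residue field of `B` has projective dimension `rsB.length`
  have hregB' : RingTheory.Sequence.IsRegular B rsB := by
    refine ⟨hB, ?_⟩
    intro h
    have h2 : Ideal.ofList rsB • (⊤ : Submodule B B) = Ideal.ofList rsB := by
      simp
    rw [h2] at h
    exact hBmax.ne_top h.symm
  have hk0 := ModuleCat.projectiveDimension_quotient_eq_length.{0} rsB hregB'
  have hk1 : projectiveDimension (ModuleCat.of B (B ⧸ maximalIdeal B)) = rsB.length := by
    rw [← hk0, hBeq]
    exact projectiveDimension_eq_of_iso
      (Shrink.linearEquiv B (B ⧸ maximalIdeal B)).symm.toModuleIso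
  have hk : HasProjectiveDimensionLT (ModuleCat.of B (B ⧸ maximalIdeal B)) (rsB.length + 1) := by
    have := (projectiveDimension_le_iff (ModuleCat.of B (B ⧸ maximalIdeal B)) rsB.length).mp
      (le_of_eq hk1)
    exact this
  have hQ : HasProjectiveDimensionLT (ModuleCat.of B (N ⧸ p)) (rsB.length + 1) :=
    S57_pdLT_of_isFiniteLength (rsB.length + 1) hk hfl
  have hQle : projectiveDimension (ModuleCat.of B (N ⧸ p)) ≤ rsB.length :=
    (projectiveDimension_le_iff _ _).mpr hQ
  -- step 7: conclude
  have hle : projectiveDimension (ModuleCat.of B N) + (rsA.length : ℕ)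
      ≤ (0 : WithBot ℕ∞) + (rsA.length : ℕ) := by
    rw [← hpd, zero_add]
    refine hQle.trans ?_
    exact_mod_cast hlen
  have hN0 : projectiveDimension (ModuleCat.of B N) ≤ ((0 : ℕ) : WithBot ℕ∞) := by
    have := ENat.WithBot.add_le_add_natCast_right_iff.mp hle
    simpa using this
  have hproj : Projective (ModuleCat.of B N) :=
    (projective_iff_hasProjectiveDimensionLE_zero _).mpr
      ((projectiveDimension_le_iff _ 0).mp hN0)
  have hproj' : Module.Projective B N := (IsProjective.iff_projective N).mpr hproj
  exact Module.free_of_flat_of_isLocalRing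


/-- Version of `S57_free_of_free_via` with the `A`-structure on `N` given by a ring hom `φ`
and an explicit `φ`-basis. -/
theorem S57_free_of_basis_via {A B : Type} [CommRing A] [CommRing B] [IsLocalRing B]
    [IsNoetherianRing B] (φ : A →+* B) {N : Type} [AddCommGroup N] [Module B N] [Nontrivial N]
    {d : ℕ} (b : Fin d → N)
    (hspan : ∀ x : N, ∃ c : Fin d → A, x = ∑ i, φ (c i) • b i)
    (hrel : ∀ c : Fin d → A, ∑ i, φ (c i) • b i = 0 → ∀ i, c i = 0)
    (rsA : List A) (hA : IsWeaklyRegular A rsA) (hAmax : (Ideal.ofList rsA).IsMaximal)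
    (rsB : List B) (hB : IsWeaklyRegular B rsB) (hBmax : (Ideal.ofList rsB).IsMaximal)
    (hlen : rsB.length ≤ rsA.length) : Module.Free B N := by
  let _ : Algebra A B := φ.toAlgebra
  let _ : Module A N := Module.compHom N φ
  have : IsScalarTower A B N :=
    ⟨fun a b' n => by
      show (φ a * b') • n = φ a • (b' • n)
      rw [mul_smul]⟩
  have happ : ∀ c : Fin d → A, Fintype.linearCombination A b c = ∑ i, φ (c i) • b i := by
    intro c
    rw [Fintype.linearCombination_apply]
    rfl
  have hbij : Function.Bijective (Fintype.linearCombination A b) := by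
    constructor
    · rw [← LinearMap.ker_eq_bot, LinearMap.ker_eq_bot']
      intro c hc
      rw [happ] at hc
      funext i
      exact hrel c hc i
    · intro x
      obtain ⟨c, hc⟩ := hspan x
      exact ⟨c, by rw [happ, hc]⟩
  let e : (Fin d → A) ≃ₗ[A] N := LinearEquiv.ofBijective _ hbij
  have : Module.Free A N := Module.Free.of_equiv e
  have : Module.Finite A N := Module.Finite.equiv e
  exact S57_free_of_free_via rsA hA hAmax rsB hB hBmax hlen

end Fermat.Agent.S57
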