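import Mathlib

set_option autoImplicit false

open RingTheory.Sequence
open scoped Pointwise

namespace Fermat.Agent.S57

/-- `A` has a weakly regular sequence of length `n` generating a maximal ideal. -/
def S57_HasRegMax (A : Type) [CommRing A] (n : ℕ) : Prop :=
  ∃ rs : List A, IsWeaklyRegular A rs ∧ (Ideal.ofList rs).IsMaximal ∧ rs.length = n

theorem S57_ofList_map {A A' : Type} [CommRing A] [CommRing A'] (f : A →+* A') (rs : List A) :
    Ideal.ofList (rs.map f) = (Ideal.ofList rs).map f := by
  unfold Ideal.ofList
  rw [Ideal.map_span]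
  congr 1
  ext x
  simp

theorem S57_HasRegMax.of_ringEquiv {A A' : Type} [CommRing A] [CommRing A'] {n : ℕ}
    (h : S57_HasRegMax A n) (e : A ≃+* A') : S57_HasRegMax A' n := by
  obtain ⟨rs, hreg, hmax, hlen⟩ := h
  refine ⟨rs.map (e.toRingHom), ?_, ?_, by simpa using hlen⟩
  · have hF : List.Forall₂ (fun (r : A) (s : A') => ∀ x : A, e.toAddEquiv (r • x) = s • e.toAddEquiv x)
        rs (rs.map (e.toRingHom)) := by
      rw [List.forall₂_map_right_iff]
      exact List.forall₂_same.mpr fun r _ x => map_mul e r x
    exact (AddEquiv.isWeaklyRegular_congr hF).mp hreg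
  · rw [S57_ofList_map e.toRingHom rs]
    exact (Ideal.isMaximal_map_iff_of_bijective e.toRingHom e.bijective).mpr hmax


theorem S57_HasRegMax.powerSeries {A : Type} [CommRing A] {n : ℕ}
    (h : S57_HasRegMax A n) : S57_HasRegMax (PowerSeries A) (n + 1) := by
  obtain ⟨rs, hreg, hmax, hlen⟩ := h
  refine ⟨PowerSeries.X :: rs.map (algebraMap A (PowerSeries A)), ?_, ?_, by simp [hlen]⟩
  · rw [isWeaklyRegular_cons_iff]
    refine ⟨?_, ?_⟩
    · intro a b hab
      exact PowerSeries.X_mul_cancel hab
    · rw [isWeaklyRegular_map_algebraMap_iff]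
      have hsurj : Function.Surjective (PowerSeries.coeff (R := A) 0) := by
        intro a
        exact ⟨PowerSeries.C a, by simp⟩
      have hker : ((PowerSeries.X : PowerSeries A) • (⊤ : Submodule (PowerSeries A) (PowerSeries A))).restrictScalars A
          = LinearMap.ker (PowerSeries.coeff (R := A) 0) := by
        ext f
        simp only [Submodule.restrictScalars_mem, LinearMap.mem_ker]
        rw [Submodule.mem_smul_pointwise_iff_exists]
        constructor
        · rintro ⟨g, -, rfl⟩
          simp
        · intro hf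
          have : (PowerSeries.X : PowerSeries A) ∣ f := by
            rw [PowerSeries.X_dvd_iff]
            simpa using hf
          obtain ⟨g, rfl⟩ := this
          exact ⟨g, trivial, rfl⟩
      let e : QuotSMulTop (PowerSeries.X : PowerSeries A) (PowerSeries A) ≃ₗ[A] A :=
        (Submodule.Quotient.restrictScalarsEquiv A _).symm.trans
          ((Submodule.quotEquivOfEq _ _ hker).trans
            (LinearMap.quotKerEquivOfSurjective (PowerSeries.coeff (R := A) 0) hsurj))
      exact (e.isWeaklyRegular_congr rs).mpr hreg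
  · have hcomap : Ideal.ofList (PowerSeries.X :: rs.map (algebraMap A (PowerSeries A)))
        = Ideal.comap (PowerSeries.constantCoeff (R := A)) (Ideal.ofList rs) := by
      rw [Ideal.ofList_cons, S57_ofList_map]
      apply le_antisymm
      · rw [sup_le_iff]
        constructor
        · rw [Ideal.span_le]
          intro x hx
          rw [Set.mem_singleton_iff] at hx
          subst hx
          simp
        · rw [Ideal.map_le_iff_le_comap]
          intro a ha
          simpa using ha
      · intro f hf
        rw [Ideal.mem_comap] at hf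
        have h1 : f - PowerSeries.C (PowerSeries.constantCoeff f) ∈ Ideal.span {(PowerSeries.X : PowerSeries A)} := by
          rw [Ideal.mem_span_singleton, PowerSeries.X_dvd_iff]
          simp
        have h2 : PowerSeries.C (PowerSeries.constantCoeff f) ∈
            Ideal.map (algebraMap A (PowerSeries A)) (Ideal.ofList rs) :=
          Ideal.mem_map_of_mem _ hf
        have : f = (f - PowerSeries.C (PowerSeries.constantCoeff f)) + PowerSeries.C (PowerSeries.constantCoeff f) := by
          ring
        rw [this]
        exact Ideal.add_mem _ (Ideal.mem_sup_left h1) (Ideal.mem_sup_right h2)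
    rw [hcomap]
    exact Ideal.comap_isMaximal_of_surjective _ PowerSeries.constantCoeff_surj


theorem S57_HasRegMax.of_dvr (𝒪 : Type) [CommRing 𝒪] [IsDomain 𝒪] [IsDiscreteValuationRing 𝒪] :
    S57_HasRegMax 𝒪 1 := by
  obtain ⟨ϖ, hϖ⟩ := IsDiscreteValuationRing.exists_irreducible 𝒪
  refine ⟨[ϖ], ?_, ?_, rfl⟩
  · rw [isWeaklyRegular_singleton_iff]
    intro a b hab
    exact mul_left_cancel₀ hϖ.ne_zero hab
  · rw [Ideal.ofList_singleton, ← hϖ.maximalIdeal_eq]
    infer_instance

theorem S57_HasRegMax.mvPowerSeries (𝒪 : Type) [CommRing 𝒪] [IsDomain 𝒪]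
    [IsDiscreteValuationRing 𝒪] (r : ℕ) :
    S57_HasRegMax (MvPowerSeries (Fin r) 𝒪) (r + 1) := by
  induction r with
  | zero =>
    exact (S57_HasRegMax.of_dvr 𝒪).of_ringEquiv
      (MvPowerSeries.isEmptyEquiv (Fin 0) 𝒪).symm.toRingEquiv
  | succ r ih =>
    exact ih.powerSeries.of_ringEquiv (MvPowerSeries.finSuccEquiv 𝒪 r).symm.toRingEquiv

end Fermat.Agent.S57
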