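import Fermat.Statements.S57
import Fermat.Agent.S57.RegSeq
import Fermat.Agent.S57.FreeCrit

set_option autoImplicit false

open RingTheory.Sequence

namespace Fermat.Agent.S57

/-- In a patching level with trivial relation ideal, the patched module `N` is free over the
power series ring (with its given module structure). -/
theorem S57_N_free
    {𝒪 : Type} [CommRing 𝒪] [IsDomain 𝒪] [IsDiscreteValuationRing 𝒪]
    {r : ℕ} {R : Type} [CommRing R] [Algebra 𝒪 R]
    {M : Type} [AddCommGroup M] [Module R M] [Nontrivial M]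
    (L : Algebra.PatchingLevel 𝒪 r R M ⊥) :
    Module.Free (MvPowerSeries (Fin r) 𝒪) L.N := by
  have : Nontrivial L.N := by
    obtain ⟨m, hm⟩ := exists_ne (0 : M)
    obtain ⟨x, hx⟩ := L.π_surjective m
    refine ⟨⟨x, 0, fun h => hm ?_⟩⟩
    rw [← hx, h, map_zero]
  obtain ⟨rs, hreg, hmax, hlen⟩ := S57_HasRegMax.mvPowerSeries 𝒪 r
  refine S57_free_of_basis_via (A := MvPowerSeries (Fin r) 𝒪) (B := MvPowerSeries (Fin r) 𝒪)
    L.φ.toRingHom L.b L.b_span ?_ rs hreg hmax rs hreg hmax le_rfl
  intro c hc i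
  have := (L.b_rel c).mp hc i
  simpa using this

end Fermat.Agent.S57
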